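import Fermat.Agent.S17.HA.TameSup

/-!
# S17 / HA / Rat : the height of a rational vector is Mathlib's height over `ℚ`
-/

set_option autoImplicit false

namespace Fermat.Agent.S17.HA

open NumberField

theorem ht_rat {ι : Type*} [Finite ι] (x : ι → ℚ) :
    ht (fun i => algebraMap ℚ Qb (x i)) = Height.logHeight x := by
  by_cases hx : x = 0
  · subst hx
    rw [Height.logHeight_zero]
    unfold ht
    have h0 : ∀ w : AbsoluteValue Qb ℝ,
        Real.log (supN w (fun i : ι => algebraMap ℚ Qb ((0 : ι → ℚ) i))) = 0 := by
      intro w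
      have : supN w (fun i : ι => algebraMap ℚ Qb ((0 : ι → ℚ) i)) = 0 := by
        apply le_antisymm
        · exact supN_le w le_rfl fun i => by simp
        · exact supN_nonneg w _
      rw [this, Real.log_zero]
    simp only [h0]
    exact SS_zero
  · have hconst : ∀ (v : Pl) (σ : GQ),
        Real.log (supN (avc v σ) (fun i => algebraMap ℚ Qb (x i)))
          = Real.log (supN (av v) (fun i => algebraMap ℚ Qb (x i))) := by
      intro v σ
      unfold supN
      simp only [avc_rat]
    unfold ht
    rw [SS_of_const (F := fun w => Real.log (supN w (fun i => algebraMap ℚ Qb (x i)))) hconst]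
    have hpos : ∀ w : FinitePlace ℚ, 0 < ⨆ i, w (x i) := by
      intro w
      obtain ⟨i, hi⟩ := Function.ne_iff.mp hx
      have h1 : 0 < w (x i) := by
        have := (av (some w)).pos (x := algebraMap ℚ Qb (x i)) (by simpa using hi)
        rwa [av_some_rat] at this
      exact lt_of_lt_of_le h1 (le_ciSup (f := fun i => w (x i)) (Set.finite_range _).bddAbove i)
    have hpos0 : 0 < ⨆ i, |(x i : ℝ)| := by
      obtain ⟨i, hi⟩ := Function.ne_iff.mp hx
      have h1 : 0 < |(x i : ℝ)| := abs_pos.2 (by exact_mod_cast hi)
      exact lt_of_lt_of_le h1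
        (le_ciSup (f := fun i => |(x i : ℝ)|) (Set.finite_range _).bddAbove i)
    have hsome : ∀ w : FinitePlace ℚ, supN (av (some w)) (fun i => algebraMap ℚ Qb (x i))
        = ⨆ i, w (x i) := by
      intro w
      unfold supN
      simp only [av_some_rat]
    have hnone : supN (av none) (fun i => algebraMap ℚ Qb (x i)) = ⨆ i, |(x i : ℝ)| := by
      unfold supN
      simp only [av_none_rat]
    have hfin : Function.HasFiniteSupport
        ((fun v : Pl => Real.log (supN (av v) (fun i => algebraMap ℚ Qb (x i)))) ∘ some) := by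
      have h1 := HT.glob1_hasFiniteMulSupport hx
      refine Set.Finite.subset h1 ?_
      intro w hw
      rw [Function.mem_support, Function.comp_apply, hsome] at hw
      rw [Function.mem_mulSupport]
      intro h2
      rw [h2, Real.log_one] at hw
      exact hw rfl
    rw [finsum_option hfin, hnone]
    simp only [hsome]
    rw [Height.logHeight_eq_log_mulHeight, HT.glob1_mulHeight_eq hx,
      Real.log_mul hpos0.ne' (finprod_ne_zero fun w => (hpos w).ne'), Real.log_finprod hpos]

theorem ht_int_of_gcd_eq_one {ι : Type*} [Fintype ι] [Nonempty ι] {x : ι → ℤ}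
    (hx : Finset.univ.gcd x = 1) :
    ht (fun i => ((x i : ℤ) : Qb)) = Real.log ((⨆ i, |x i| : ℤ) : ℝ) := by
  have h1 := ht_rat (fun i => ((x i : ℤ) : ℚ))
  have h2 : (fun i => algebraMap ℚ Qb ((x i : ℤ) : ℚ)) = fun i => ((x i : ℤ) : Qb) := by
    funext i
    simp
  rw [h2] at h1
  rw [h1]
  exact Rat.logHeight_eq_max_abs_of_gcd_eq_one hx

end Fermat.Agent.S17.HA
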