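import Fermat.Agent.S17.HA.HtB
import Fermat.Agent.S17.HA.Rat
import Fermat.Agent.S17.HN.Defs

/-!
# S17 / HA / MainB : `Nonempty HN.GHt` from the Haar-mean chain
-/

set_option autoImplicit false

namespace Fermat.Agent.S17.HA

open Fermat.Agent.S17

theorem tame_list (L : List HN.FVec) :
    Tame fun w => (L.map fun X => Real.log (supN w X.x)).sum := by
  induction L with
  | nil => simpa using Tame.zero
  | cons X L ih =>
    simp only [List.map_cons, List.sum_cons]
    haveI := X.fin
    exact (tame_log_supN X.ne).add ih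

theorem SS_list (L : List HN.FVec) :
    SS (fun w => (L.map fun X => Real.log (supN w X.x)).sum) = (L.map fun X => ht X.x).sum := by
  induction L with
  | nil => simpa using SS_zero
  | cons X L ih =>
    simp only [List.map_cons, List.sum_cons]
    haveI := X.fin
    rw [SS_add (tame_log_supN X.ne) (tame_list L), ih]
    rfl

theorem prod_list_pos (w : AbsoluteValue Qb ℝ) (L : List HN.FVec) :
    0 < (L.map fun X => supN w X.x).prod := by
  induction L with
  | nil => simp
  | cons X L ih =>
    simp only [List.map_cons, List.prod_cons]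
    haveI := X.fin
    exact mul_pos (supN_pos w X.ne) ih

theorem log_prod_list (w : AbsoluteValue Qb ℝ) (L : List HN.FVec) :
    Real.log (L.map fun X => supN w X.x).prod = (L.map fun X => Real.log (supN w X.x)).sum := by
  induction L with
  | nil => simp
  | cons X L ih =>
    simp only [List.map_cons, List.prod_cons, List.sum_cons]
    haveI := X.fin
    rw [Real.log_mul (ne_of_gt (supN_pos w X.ne)) (ne_of_gt (prod_list_pos w L)), ih]

theorem locC_le_max {k : Type*} [Field k] (M : ℝ) (S : Multiset k) (w : AbsoluteValue k ℝ) :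
    locC M S w ≤ locC (max 1 M) S w := by
  unfold locC
  exact mul_le_mul_of_nonneg_right (wN_mono w (le_max_right _ _))
    (le_trans zero_le_one (one_le_prod_max w S))

theorem ht_transfer_B (M : ℝ) (S : Multiset Qb) : ∃ c : ℝ, ∀ L₁ L₂ : List HN.FVec,
    (∀ w : AbsoluteValue Qb ℝ, (L₁.map fun X => HN.vnorm w X.x).prod
      ≤ HN.locC M S w * (L₂.map fun X => HN.vnorm w X.x).prod) →
    (L₁.map fun X => ht X.x).sum ≤ (L₂.map fun X => ht X.x).sum + c := by
  refine ⟨cst (max 1 M) S, fun L₁ L₂ h => ?_⟩
  rw [← SS_list, ← SS_list, add_comm]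
  refine transfer (le_max_left _ _) S (tame_list L₁) (tame_list L₂) fun v σ => ?_
  rw [← log_prod_list, ← log_prod_list,
    ← Real.log_mul (ne_of_gt (locC_pos _ (le_max_left _ _) S)) (ne_of_gt (prod_list_pos _ L₂))]
  refine Real.log_le_log (prod_list_pos _ L₁) ((h (avc v σ)).trans ?_)
  exact mul_le_mul_of_nonneg_right (locC_le_max M S _) (le_of_lt (prod_list_pos _ L₂))

theorem ht_prim_B {ι : Type} [Fintype ι] (x : ι → ℤ) (hx : Finset.univ.gcd x = 1) :
    ht (fun i => ((x i : ℤ) : Qb)) = Real.log (⨆ i, |(x i : ℝ)|) := by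
  rcases isEmpty_or_nonempty ι with h | h
  · exfalso
    rw [Finset.univ_eq_empty, Finset.gcd_empty] at hx
    exact zero_ne_one hx
  rw [ht_int_of_gcd_eq_one hx]
  congr 1
  rw [Finite.map_iSup_of_monotone _ Int.cast_mono]
  simp

theorem nonempty_GHt_B : Nonempty HN.GHt :=
  ⟨{ ht := fun x => ht x
     nonneg := fun x => ht_nonneg x
     smul := fun _ x hc => ht_smul x hc
     transfer := ht_transfer_B
     prim := fun x hx => ht_prim_B x hx }⟩

end Fermat.Agent.S17.HA
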