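import Mathlib

/-!
# S17 / HA : averaging functions on a group that are invariant under a subgroup of finite index

No topology, no measure theory.  `avg f` is the mean value of `f : G → ℝ` if `f` is right invariant
under some subgroup of finite index (`FI f`), and `0` otherwise.
-/

set_option autoImplicit false

namespace Fermat.Agent.S17.HA

noncomputable section

variable {G : Type*} [Group G]

/-- `f` is right invariant under `U`. -/
def RInv (U : Subgroup G) (f : G → ℝ) : Prop := ∀ σ, ∀ τ ∈ U, f (σ * τ) = f σ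

/-- `f` is right invariant under a subgroup of finite index. -/
def FI (f : G → ℝ) : Prop := ∃ U : Subgroup G, U.FiniteIndex ∧ RInv U f

/-- the mean value of `f` over `G ⧸ U`. -/
def avgOn (U : Subgroup G) (f : G → ℝ) : ℝ := (∑ᶠ x : G ⧸ U, f x.out) / (U.index : ℝ)

open Classical in
/-- the mean value of `f`. -/
def avg (f : G → ℝ) : ℝ := if h : FI f then avgOn h.choose f else 0

theorem RInv.mono {U V : Subgroup G} {f : G → ℝ} (h : RInv U f) (hVU : V ≤ U) : RInv V f :=
  fun σ τ hτ => h σ τ (hVU hτ)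

theorem RInv.out_eq {U : Subgroup G} {f : G → ℝ} (h : RInv U f) (σ : G) :
    f (QuotientGroup.mk σ : G ⧸ U).out = f σ := by
  obtain ⟨τ, hτ⟩ := QuotientGroup.mk_out_eq_mul U σ
  rw [hτ, h σ τ τ.2]

theorem avgOn_eq_of_le {U V : Subgroup G} [V.FiniteIndex] {f : G → ℝ} (hVU : V ≤ U)
    (h : RInv U f) : avgOn V f = avgOn U f := by
  classical
  have hU : U.FiniteIndex := Subgroup.finiteIndex_of_le hVU
  have : Fintype (G ⧸ V) := Fintype.ofFinite _
  have : Fintype (G ⧸ U) := Fintype.ofFinite _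
  have hfin : Finite (U ⧸ V.subgroupOf U) := Subgroup.finite_quotient_of_finiteIndex
  have : Fintype (U ⧸ V.subgroupOf U) := Fintype.ofFinite _
  let e := Subgroup.quotientEquivProdOfLE hVU
  have he : ∀ y : G ⧸ V, f y.out = f (e y).1.out := by
    intro y
    have h1 : (e y).1 = (QuotientGroup.mk y.out : G ⧸ U) := by
      conv_lhs => rw [← QuotientGroup.out_eq' y]
      rfl
    rw [h1, h.out_eq]
  have hsum : ∑ y : G ⧸ V, f y.out = (Nat.card (U ⧸ V.subgroupOf U) : ℝ) * ∑ x : G ⧸ U, f x.out := by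
    calc ∑ y : G ⧸ V, f y.out = ∑ y : G ⧸ V, f (e y).1.out := Finset.sum_congr rfl fun y _ => he y
      _ = ∑ p : (G ⧸ U) × (U ⧸ V.subgroupOf U), f p.1.out :=
          e.sum_comp (fun p : (G ⧸ U) × (U ⧸ V.subgroupOf U) => f p.1.out)
      _ = ∑ x : G ⧸ U, ∑ _z : U ⧸ V.subgroupOf U, f x.out := Fintype.sum_prod_type _
      _ = (Nat.card (U ⧸ V.subgroupOf U) : ℝ) * ∑ x : G ⧸ U, f x.out := by
          simp only [Finset.sum_const, Finset.card_univ, nsmul_eq_mul, Nat.card_eq_fintype_card]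
          rw [Finset.mul_sum]
  have hidx : (V.index : ℝ) = (Nat.card (U ⧸ V.subgroupOf U) : ℝ) * (U.index : ℝ) := by
    have := Subgroup.relIndex_mul_index hVU
    rw [← this]
    push_cast
    rfl
  have h0 : (Nat.card (U ⧸ V.subgroupOf U) : ℝ) ≠ 0 := by
    have : Nat.card (U ⧸ V.subgroupOf U) ≠ 0 := Nat.card_pos.ne'
    exact_mod_cast this
  unfold avgOn
  rw [finsum_eq_sum_of_fintype, finsum_eq_sum_of_fintype, hsum, hidx, mul_div_mul_left _ _ h0]

theorem avgOn_eq_avgOn {U V : Subgroup G} [U.FiniteIndex] [V.FiniteIndex] {f : G → ℝ}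
    (hU : RInv U f) (hV : RInv V f) : avgOn U f = avgOn V f := by
  rw [← avgOn_eq_of_le (V := U ⊓ V) inf_le_left hU, ← avgOn_eq_of_le (V := U ⊓ V) inf_le_right hV]

/-- `avg` can be computed with any subgroup of finite index under which `f` is invariant. -/
theorem avg_eq_avgOn {U : Subgroup G} [U.FiniteIndex] {f : G → ℝ} (hU : RInv U f) :
    avg f = avgOn U f := by
  have h : FI f := ⟨U, inferInstance, hU⟩
  unfold avg
  rw [dif_pos h]
  have := h.choose_spec.1
  exact avgOn_eq_avgOn h.choose_spec.2 hU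

theorem avgOn_eq_sum (U : Subgroup G) [U.FiniteIndex] [Fintype (G ⧸ U)] (f : G → ℝ) :
    avgOn U f = (∑ x : G ⧸ U, f x.out) / (U.index : ℝ) := by
  unfold avgOn
  rw [finsum_eq_sum_of_fintype]

theorem index_ne_zero_real (U : Subgroup G) [U.FiniteIndex] : (U.index : ℝ) ≠ 0 := by
  exact_mod_cast Subgroup.FiniteIndex.index_ne_zero

theorem index_pos_real (U : Subgroup G) [U.FiniteIndex] : (0 : ℝ) < (U.index : ℝ) := by
  exact_mod_cast Nat.pos_of_ne_zero Subgroup.FiniteIndex.index_ne_zero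

/-! ### closure properties of `FI` -/

theorem FI.const (c : ℝ) : FI (fun _ : G => c) := ⟨⊤, inferInstance, fun _ _ _ => rfl⟩

theorem FI.exists_common {f g : G → ℝ} (hf : FI f) (hg : FI g) :
    ∃ U : Subgroup G, U.FiniteIndex ∧ RInv U f ∧ RInv U g := by
  obtain ⟨U, hU, h⟩ := hf
  obtain ⟨V, hV, h'⟩ := hg
  exact ⟨U ⊓ V, inferInstance, h.mono inf_le_left, h'.mono inf_le_right⟩

theorem FI.map₂ {f g : G → ℝ} (hf : FI f) (hg : FI g) (Φ : ℝ → ℝ → ℝ) :
    FI (fun σ => Φ (f σ) (g σ)) := by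
  obtain ⟨U, hU, h, h'⟩ := hf.exists_common hg
  exact ⟨U, hU, fun σ τ hτ => by simp only [h σ τ hτ, h' σ τ hτ]⟩

theorem FI.map {f : G → ℝ} (hf : FI f) (Φ : ℝ → ℝ) : FI (fun σ => Φ (f σ)) := by
  obtain ⟨U, hU, h⟩ := hf
  exact ⟨U, hU, fun σ τ hτ => by simp only [h σ τ hτ]⟩

theorem FI.add {f g : G → ℝ} (hf : FI f) (hg : FI g) : FI (fun σ => f σ + g σ) :=
  hf.map₂ hg (· + ·)

theorem FI.sub {f g : G → ℝ} (hf : FI f) (hg : FI g) : FI (fun σ => f σ - g σ) :=
  hf.map₂ hg (· - ·)

theorem FI.mul {f g : G → ℝ} (hf : FI f) (hg : FI g) : FI (fun σ => f σ * g σ) :=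
  hf.map₂ hg (· * ·)

theorem FI.neg {f : G → ℝ} (hf : FI f) : FI (fun σ => - f σ) := hf.map (- ·)

theorem FI.const_mul {f : G → ℝ} (hf : FI f) (c : ℝ) : FI (fun σ => c * f σ) := hf.map (c * ·)

theorem FI.sum {ι : Type*} (s : Finset ι) {f : ι → G → ℝ} (hf : ∀ i ∈ s, FI (f i)) :
    FI (fun σ => ∑ i ∈ s, f i σ) := by
  classical
  induction s using Finset.induction_on with
  | empty => simpa using FI.const (G := G) 0
  | insert a s ha ih =>
    simp only [Finset.sum_insert ha]
    exact (hf a (Finset.mem_insert_self a s)).add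
      (ih fun i hi => hf i (Finset.mem_insert_of_mem hi))

/-- a function of the form `σ ↦ Φ (σ • x)` with `x` of finite orbit. -/
theorem FI.of_smul {X : Type*} [MulAction G X] (x : X) (hx : (MulAction.stabilizer G x).FiniteIndex)
    (Φ : X → ℝ) : FI (fun σ : G => Φ (σ • x)) :=
  ⟨MulAction.stabilizer G x, hx, fun σ τ hτ => by
    simp only [mul_smul, MulAction.mem_stabilizer_iff.mp hτ]⟩

/-- there is a NORMAL subgroup of finite index under which `f` is invariant. -/
theorem FI.exists_normal {f : G → ℝ} (hf : FI f) :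
    ∃ U : Subgroup G, U.Normal ∧ U.FiniteIndex ∧ RInv U f := by
  obtain ⟨U, hU, h⟩ := hf
  exact ⟨U.normalCore, inferInstance, inferInstance, h.mono (Subgroup.normalCore_le U)⟩

theorem FI.mul_left {f : G → ℝ} (hf : FI f) (g : G) : FI (fun σ => f (g * σ)) := by
  obtain ⟨U, hU, h⟩ := hf
  exact ⟨U, hU, fun σ τ hτ => by simp only [← mul_assoc, h (g * σ) τ hτ]⟩

theorem RInv.mul_right {U : Subgroup G} [U.Normal] {f : G → ℝ} (h : RInv U f) (g : G) :
    RInv U (fun σ => f (σ * g)) := by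
  intro σ τ hτ
  have h1 : σ * τ * g = σ * g * (g⁻¹ * τ * g) := by group
  show f (σ * τ * g) = f (σ * g)
  rw [h1]
  refine h _ _ ?_
  have := Subgroup.Normal.conj_mem (inferInstance : U.Normal) τ hτ g⁻¹
  simpa using this

theorem FI.mul_right {f : G → ℝ} (hf : FI f) (g : G) : FI (fun σ => f (σ * g)) := by
  obtain ⟨U, hN, hU, h⟩ := hf.exists_normal
  exact ⟨U, hU, h.mul_right g⟩

/-! ### properties of `avg` -/

theorem avg_const (c : ℝ) : avg (fun _ : G => c) = c := by
  classical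
  have h : RInv (⊤ : Subgroup G) (fun _ : G => c) := fun _ _ _ => rfl
  rw [avg_eq_avgOn h]
  have : Fintype (G ⧸ (⊤ : Subgroup G)) := Fintype.ofFinite _
  rw [avgOn_eq_sum]
  have h1 : Fintype.card (G ⧸ (⊤ : Subgroup G)) = 1 := by
    rw [← Nat.card_eq_fintype_card]
    exact Subgroup.index_top
  simp [Subgroup.index_top, h1]

theorem avg_add {f g : G → ℝ} (hf : FI f) (hg : FI g) :
    avg (fun σ => f σ + g σ) = avg f + avg g := by
  classical
  obtain ⟨U, hU, h, h'⟩ := hf.exists_common hg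
  have h'' : RInv U (fun σ => f σ + g σ) := fun σ τ hτ => by simp only [h σ τ hτ, h' σ τ hτ]
  have : Fintype (G ⧸ U) := Fintype.ofFinite _
  rw [avg_eq_avgOn h, avg_eq_avgOn h', avg_eq_avgOn h'', avgOn_eq_sum, avgOn_eq_sum, avgOn_eq_sum,
    Finset.sum_add_distrib, add_div]

theorem avg_const_mul {f : G → ℝ} (hf : FI f) (c : ℝ) : avg (fun σ => c * f σ) = c * avg f := by
  classical
  obtain ⟨U, hU, h⟩ := hf
  have h'' : RInv U (fun σ => c * f σ) := fun σ τ hτ => by simp only [h σ τ hτ]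
  have : Fintype (G ⧸ U) := Fintype.ofFinite _
  rw [avg_eq_avgOn h, avg_eq_avgOn h'', avgOn_eq_sum, avgOn_eq_sum, ← Finset.mul_sum, mul_div_assoc]

theorem avg_neg {f : G → ℝ} (hf : FI f) : avg (fun σ => - f σ) = - avg f := by
  have := avg_const_mul hf (-1)
  simpa using this

theorem avg_sub {f g : G → ℝ} (hf : FI f) (hg : FI g) :
    avg (fun σ => f σ - g σ) = avg f - avg g := by
  have := avg_add hf hg.neg
  rw [avg_neg hg] at this
  simpa [sub_eq_add_neg] using this

theorem avg_mono {f g : G → ℝ} (hf : FI f) (hg : FI g) (hle : ∀ σ, f σ ≤ g σ) :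
    avg f ≤ avg g := by
  classical
  obtain ⟨U, hU, h, h'⟩ := hf.exists_common hg
  have : Fintype (G ⧸ U) := Fintype.ofFinite _
  rw [avg_eq_avgOn h, avg_eq_avgOn h', avgOn_eq_sum, avgOn_eq_sum]
  exact div_le_div_of_nonneg_right (Finset.sum_le_sum fun x _ => hle _) (index_pos_real U).le

theorem avg_nonneg {f : G → ℝ} (hle : ∀ σ, 0 ≤ f σ) : 0 ≤ avg f := by
  by_cases hf : FI f
  · have := avg_mono (FI.const (G := G) 0) hf hle
    rwa [avg_const] at this
  · unfold avg
    rw [dif_neg hf]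

theorem avg_sum {ι : Type*} (s : Finset ι) {f : ι → G → ℝ} (hf : ∀ i ∈ s, FI (f i)) :
    avg (fun σ => ∑ i ∈ s, f i σ) = ∑ i ∈ s, avg (f i) := by
  classical
  induction s using Finset.induction_on with
  | empty => simpa using avg_const (G := G) 0
  | insert a s ha ih =>
    simp only [Finset.sum_insert ha]
    rw [avg_add (hf a (Finset.mem_insert_self a s))
      (FI.sum s fun i hi => hf i (Finset.mem_insert_of_mem hi)),
      ih fun i hi => hf i (Finset.mem_insert_of_mem hi)]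

theorem avg_congr {f g : G → ℝ} (h : ∀ σ, f σ = g σ) : avg f = avg g := by
  rw [funext h]

/-- left translation invariance -/
theorem avg_mul_left {f : G → ℝ} (hf : FI f) (g : G) : avg (fun σ => f (g * σ)) = avg f := by
  classical
  obtain ⟨U, hU, h⟩ := hf
  have h'' : RInv U (fun σ => f (g * σ)) := fun σ τ hτ => by simp only [← mul_assoc, h (g * σ) τ hτ]
  have : Fintype (G ⧸ U) := Fintype.ofFinite _
  rw [avg_eq_avgOn h, avg_eq_avgOn h'', avgOn_eq_sum, avgOn_eq_sum]
  congr 1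
  have h1 : ∀ x : G ⧸ U, f (g * x.out) = f (g • x).out := by
    intro x
    have h2 : g • x = (QuotientGroup.mk (g * x.out) : G ⧸ U) := by
      conv_lhs => rw [← QuotientGroup.out_eq' x]
      rfl
    rw [h2, h.out_eq]
  calc ∑ x : G ⧸ U, f (g * x.out) = ∑ x : G ⧸ U, f (g • x).out :=
        Finset.sum_congr rfl fun x _ => h1 x
    _ = ∑ x : G ⧸ U, f x.out := Equiv.sum_comp (MulAction.toPerm g) (fun x : G ⧸ U => f x.out)

/-- right translation invariance -/
theorem avg_mul_right {f : G → ℝ} (hf : FI f) (g : G) : avg (fun σ => f (σ * g)) = avg f := by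
  classical
  obtain ⟨U, hN, hU, h⟩ := hf.exists_normal
  have h'' := h.mul_right g
  have : Fintype (G ⧸ U) := Fintype.ofFinite _
  rw [avg_eq_avgOn h, avg_eq_avgOn h'', avgOn_eq_sum, avgOn_eq_sum]
  congr 1
  have h1 : ∀ x : G ⧸ U, f (x.out * g) = f (x * (QuotientGroup.mk g : G ⧸ U)).out := by
    intro x
    have h2 : x * (QuotientGroup.mk g : G ⧸ U) = (QuotientGroup.mk (x.out * g) : G ⧸ U) := by
      conv_lhs => rw [← QuotientGroup.out_eq' x]
      rfl
    rw [h2, h.out_eq]
  calc ∑ x : G ⧸ U, f (x.out * g) = ∑ x : G ⧸ U, f (x * (QuotientGroup.mk g : G ⧸ U)).out :=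
        Finset.sum_congr rfl fun x _ => h1 x
    _ = ∑ x : G ⧸ U, f x.out :=
        Equiv.sum_comp (Equiv.mulRight (QuotientGroup.mk g : G ⧸ U)) (fun x : G ⧸ U => f x.out)

/-- the mean value of `σ ↦ Φ (σ • x)` is the average of `Φ` over the orbit of `x`. -/
theorem avg_smul_eq_orbit {X : Type*} [MulAction G X] (x : X)
    (hx : (MulAction.stabilizer G x).FiniteIndex) (Φ : X → ℝ) :
    avg (fun σ : G => Φ (σ • x)) =
      (∑ᶠ y ∈ MulAction.orbit G x, Φ y) / (Nat.card (MulAction.orbit G x) : ℝ) := by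
  classical
  have h : RInv (MulAction.stabilizer G x) (fun σ : G => Φ (σ • x)) := fun σ τ hτ => by
    simp only [mul_smul, MulAction.mem_stabilizer_iff.mp hτ]
  rw [avg_eq_avgOn h]
  unfold avgOn
  let e := MulAction.orbitEquivQuotientStabilizer G x
  have hcard : Nat.card (MulAction.orbit G x) = (MulAction.stabilizer G x).index :=
    Nat.card_congr e
  rw [hcard]
  congr 1
  rw [← finsum_set_coe_eq_finsum_mem, ← finsum_comp_equiv e.symm]
  apply finsum_congr
  intro q
  have : ((e.symm q : MulAction.orbit G x) : X) = q.out • x := by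
    conv_lhs => rw [← QuotientGroup.out_eq' q]
    rfl
  rw [this]

end

end Fermat.Agent.S17.HA
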