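import Fermat.Agent.S17.HA.Defs

/-!
# S17 / HA / Calc : `SS` is a positive linear functional on tame functions
-/

set_option autoImplicit false
set_option linter.unusedVariables false

namespace Fermat.Agent.S17.HA

variable {F G : AbsoluteValue Qb ℝ → ℝ}

theorem Tame.lc (h : Tame F) : LC fun σ => ∑ᶠ v : Pl, F (avc v σ) := by
  obtain ⟨-, E, hE, hF⟩ := h
  exact ⟨E, hE, fun σ u hu => finsum_congr fun v => hF v σ u hu⟩

theorem Tame.finite_support (h : Tame F) (σ : GQ) :
    (Function.support fun v : Pl => F (avc v σ)).Finite :=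
  h.1.subset fun v hv => ⟨σ, hv⟩

/-- Tameness only depends on the values at the `avc v σ`. -/
theorem Tame.congr (h : Tame F) (hFG : ∀ v σ, F (avc v σ) = G (avc v σ)) : Tame G := by
  obtain ⟨h1, E, hE, hF⟩ := h
  refine ⟨h1.subset ?_, E, hE, fun v σ u hu => ?_⟩
  · rintro v ⟨σ, hσ⟩
    exact ⟨σ, by rwa [hFG]⟩
  · rw [← hFG, ← hFG, hF v σ u hu]

theorem SS_congr (hFG : ∀ v σ, F (avc v σ) = G (avc v σ)) : SS F = SS G := by
  unfold SS
  congr 1
  ext σ
  exact finsum_congr fun v => hFG v σ

theorem Tame.zero : Tame fun _ => 0 :=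
  ⟨by simp, ⊥, inferInstance, fun _ _ _ _ => rfl⟩

theorem Tame.add (hF : Tame F) (hG : Tame G) : Tame fun w => F w + G w := by
  obtain ⟨h1, E, hE, hF⟩ := hF
  obtain ⟨h2, E', hE', hG⟩ := hG
  refine ⟨(h1.union h2).subset ?_, E ⊔ E', IntermediateField.finiteDimensional_sup E E',
    fun v σ u hu => ?_⟩
  · rintro v ⟨σ, hσ⟩
    by_cases h : F (avc v σ) = 0
    · right
      refine ⟨σ, fun h' => hσ ?_⟩
      change F (avc v σ) + G (avc v σ) = 0
      rw [h, h', add_zero]
    · exact Or.inl ⟨σ, h⟩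
  · rw [IntermediateField.fixingSubgroup_sup] at hu
    change F (avc v (σ * u)) + G (avc v (σ * u)) = _
    rw [hF v σ u hu.1, hG v σ u hu.2]

theorem Tame.smul (c : ℝ) (hF : Tame F) : Tame fun w => c * F w := by
  obtain ⟨h1, E, hE, hF⟩ := hF
  refine ⟨h1.subset ?_, E, hE, fun v σ u hu => by
    change c * F (avc v (σ * u)) = _
    rw [hF v σ u hu]⟩
  rintro v ⟨σ, hσ⟩
  exact ⟨σ, fun h => hσ (by change c * F (avc v σ) = 0; rw [h, mul_zero])⟩

theorem Tame.neg (hF : Tame F) : Tame fun w => - F w := by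
  simpa using hF.smul (-1)

theorem Tame.sub (hF : Tame F) (hG : Tame G) : Tame fun w => F w - G w := by
  simpa [sub_eq_add_neg] using hF.add hG.neg

theorem Tame.sum {ι : Type*} (s : Finset ι) {F : ι → AbsoluteValue Qb ℝ → ℝ}
    (h : ∀ i ∈ s, Tame (F i)) : Tame fun w => ∑ i ∈ s, F i w := by
  classical
  induction s using Finset.induction_on with
  | empty => simpa using Tame.zero
  | insert a s ha ih =>
    simp only [Finset.sum_insert ha]
    exact (h a (Finset.mem_insert_self _ _)).add (ih fun i hi => h i (Finset.mem_insert_of_mem hi))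

theorem SS_zero : SS (fun _ => 0) = 0 := by
  simp [SS, mean_const]

theorem SS_add (hF : Tame F) (hG : Tame G) : SS (fun w => F w + G w) = SS F + SS G := by
  unfold SS
  rw [← mean_add hF.lc hG.lc]
  congr 1
  ext σ
  exact finsum_add_distrib (hF.finite_support σ) (hG.finite_support σ)

theorem SS_smul (c : ℝ) (F : AbsoluteValue Qb ℝ → ℝ) : SS (fun w => c * F w) = c * SS F := by
  unfold SS
  rw [← mean_smul]
  congr 1
  ext σ
  have := smul_finsum c (fun v : Pl => F (avc v σ))
  simpa only [smul_eq_mul] using this.symm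

theorem SS_neg (F : AbsoluteValue Qb ℝ → ℝ) : SS (fun w => - F w) = - SS F := by
  simpa using SS_smul (-1) F

theorem SS_sub (hF : Tame F) (hG : Tame G) : SS (fun w => F w - G w) = SS F - SS G := by
  have := SS_add hF hG.neg
  rw [SS_neg] at this
  simpa [sub_eq_add_neg] using this

theorem SS_sum {ι : Type*} (s : Finset ι) {F : ι → AbsoluteValue Qb ℝ → ℝ}
    (h : ∀ i ∈ s, Tame (F i)) : SS (fun w => ∑ i ∈ s, F i w) = ∑ i ∈ s, SS (F i) := by
  classical
  induction s using Finset.induction_on with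
  | empty => simpa using SS_zero
  | insert a s ha ih =>
    simp only [Finset.sum_insert ha]
    rw [SS_add (h a (Finset.mem_insert_self _ _))
      (Tame.sum s fun i hi => h i (Finset.mem_insert_of_mem hi)),
      ih fun i hi => h i (Finset.mem_insert_of_mem hi)]

theorem SS_mono (hF : Tame F) (hG : Tame G) (h : ∀ v σ, F (avc v σ) ≤ G (avc v σ)) :
    SS F ≤ SS G :=
  mean_mono hF.lc hG.lc fun σ =>
    finsum_le_finsum' (hF.finite_support σ) (hG.finite_support σ) fun v => h v σ

theorem SS_nonneg (hF : Tame F) (h : ∀ v σ, 0 ≤ F (avc v σ)) : 0 ≤ SS F := by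
  rw [← SS_zero]
  exact SS_mono Tame.zero hF h

/-- `SS` is invariant under conjugation of the argument. -/
theorem SS_conj (F : AbsoluteValue Qb ℝ → ℝ) (g : GQ) :
    SS (fun w => F (w.comp (f := (g : Qb →+* Qb)) g.injective)) = SS F := by
  unfold SS
  rw [← mean_comp_mul_right (fun σ => ∑ᶠ v : Pl, F (avc v σ)) g]
  rfl

/-- If `F (avc v σ)` does not depend on `σ`, then `SS F` is the plain sum over the places. -/
theorem SS_of_const (h : ∀ v σ, F (avc v σ) = F (av v)) : SS F = ∑ᶠ v : Pl, F (av v) := by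
  unfold SS
  simp only [h]
  exact mean_const _

end Fermat.Agent.S17.HA
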