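import Mathlib

/-!
# S17 / HA / Loc : local constants and sup norms for an arbitrary absolute value

Everything here is for an arbitrary field `k` and an arbitrary `w : AbsoluteValue k ℝ`.
`locC M S w = (1 or M) * ∏_{s ∈ S} max 1 (w s)` is the shape of all "admissible constants".
-/

set_option autoImplicit false
set_option linter.unusedSectionVars false
set_option linter.unusedVariables false

namespace Fermat.Agent.S17.HA

open scoped Classical in
/-- `1` at a non-archimedean absolute value, `M` otherwise. -/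
noncomputable def wN {k : Type*} [Field k] (w : AbsoluteValue k ℝ) (M : ℝ) : ℝ :=
  if IsNonarchimedean w then 1 else M

/-- The shape of all admissible local constants. -/
noncomputable def locC {k : Type*} [Field k] (M : ℝ) (S : Multiset k) (w : AbsoluteValue k ℝ) : ℝ :=
  wN w M * (S.map fun s => max 1 (w s)).prod

/-- The sup norm of a tuple. -/
noncomputable def supN {k ι : Type*} [Field k] (w : AbsoluteValue k ℝ) (X : ι → k) : ℝ :=
  ⨆ i, w (X i)

variable {k : Type*} [Field k] (w : AbsoluteValue k ℝ)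

theorem wN_of_nonarch (h : IsNonarchimedean w) (M : ℝ) : wN w M = 1 := by
  classical
  exact if_pos h

theorem wN_of_arch (h : ¬ IsNonarchimedean w) (M : ℝ) : wN w M = M := by
  classical
  exact if_neg h

theorem one_le_wN {M : ℝ} (hM : 1 ≤ M) : 1 ≤ wN w M := by
  by_cases h : IsNonarchimedean w
  · rw [wN_of_nonarch w h]
  · rwa [wN_of_arch w h]

theorem wN_pos {M : ℝ} (hM : 1 ≤ M) : 0 < wN w M := lt_of_lt_of_le one_pos (one_le_wN w hM)

theorem wN_mul (M M' : ℝ) : wN w M * wN w M' = wN w (M * M') := by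
  by_cases h : IsNonarchimedean w
  · simp only [wN_of_nonarch w h, mul_one]
  · simp only [wN_of_arch w h]

theorem wN_mono {M M' : ℝ} (h : M ≤ M') : wN w M ≤ wN w M' := by
  by_cases h' : IsNonarchimedean w
  · simp only [wN_of_nonarch w h', le_refl]
  · simpa only [wN_of_arch w h'] using h

theorem wN_le {M : ℝ} (hM : 1 ≤ M) : wN w M ≤ M := by
  by_cases h' : IsNonarchimedean w
  · simpa only [wN_of_nonarch w h'] using hM
  · simp only [wN_of_arch w h', le_refl]

theorem wN_one : wN w 1 = 1 := by
  by_cases h' : IsNonarchimedean w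
  · simp only [wN_of_nonarch w h']
  · simp only [wN_of_arch w h']

theorem one_le_prod_max (S : Multiset k) : 1 ≤ (S.map fun s => max 1 (w s)).prod := by
  induction S using Multiset.induction_on with
  | empty => simp
  | cons a S ih =>
    rw [Multiset.map_cons, Multiset.prod_cons]
    exact one_le_mul_of_one_le_of_one_le (le_max_left _ _) ih

theorem one_le_locC {M : ℝ} (hM : 1 ≤ M) (S : Multiset k) : 1 ≤ locC M S w :=
  one_le_mul_of_one_le_of_one_le (one_le_wN w hM) (one_le_prod_max w S)

theorem locC_pos {M : ℝ} (hM : 1 ≤ M) (S : Multiset k) : 0 < locC M S w :=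
  lt_of_lt_of_le one_pos (one_le_locC w hM S)

theorem locC_mul (M M' : ℝ) (S S' : Multiset k) :
    locC M S w * locC M' S' w = locC (M * M') (S + S') w := by
  unfold locC
  rw [Multiset.map_add, Multiset.prod_add, ← wN_mul]
  ring

theorem locC_one_zero : locC 1 (0 : Multiset k) w = 1 := by
  simp [locC, wN_one]

theorem prod_max_mono {S S' : Multiset k} (h : S ≤ S') :
    (S.map fun s => max 1 (w s)).prod ≤ (S'.map fun s => max 1 (w s)).prod := by
  obtain ⟨T, rfl⟩ := Multiset.le_iff_exists_add.mp h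
  rw [Multiset.map_add, Multiset.prod_add]
  exact le_mul_of_one_le_right (le_trans zero_le_one (one_le_prod_max w S)) (one_le_prod_max w T)

theorem locC_mono {M M' : ℝ} (hM : 1 ≤ M) (h : M ≤ M') {S S' : Multiset k} (hS : S ≤ S') :
    locC M S w ≤ locC M' S' w :=
  mul_le_mul (wN_mono w h) (prod_max_mono w hS) (le_trans zero_le_one (one_le_prod_max w S))
    (le_of_lt (wN_pos w (hM.trans h)))

theorem locC_le_add_left {M M' : ℝ} (hM : 1 ≤ M) (hM' : 1 ≤ M') (S S' : Multiset k) :
    locC M S w ≤ locC (M * M') (S + S') w := by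
  rw [← locC_mul]
  exact le_mul_of_one_le_right (le_of_lt (locC_pos w hM S)) (one_le_locC w hM' S')

theorem locC_le_add_right {M M' : ℝ} (hM : 1 ≤ M) (hM' : 1 ≤ M') (S S' : Multiset k) :
    locC M' S' w ≤ locC (M * M') (S + S') w := by
  rw [← locC_mul]
  exact le_mul_of_one_le_left (le_of_lt (locC_pos w hM' S')) (one_le_locC w hM S)

theorem locC_pow (M : ℝ) (S : Multiset k) (n : ℕ) :
    locC M S w ^ n = locC (M ^ n) (n • S) w := by
  induction n with
  | zero => simp [locC_one_zero]
  | succ n ih => rw [pow_succ, ih, locC_mul, pow_succ, succ_nsmul]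

theorem abv_le_prod_max {S : Multiset k} {s : k} (hs : s ∈ S) :
    w s ≤ (S.map fun s => max 1 (w s)).prod := by
  obtain ⟨T, rfl⟩ := Multiset.exists_cons_of_mem hs
  rw [Multiset.map_cons, Multiset.prod_cons]
  calc w s ≤ max 1 (w s) := le_max_right _ _
    _ ≤ _ := le_mul_of_one_le_right (le_trans zero_le_one (le_max_left _ _)) (one_le_prod_max w T)

theorem abv_le_locC {M : ℝ} (hM : 1 ≤ M) {S : Multiset k} {s : k} (hs : s ∈ S) :
    w s ≤ locC M S w :=
  (abv_le_prod_max w hs).trans
    (le_mul_of_one_le_left (le_trans zero_le_one (one_le_prod_max w S)) (one_le_wN w hM))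

/-- The basic estimate for sums. -/
theorem abv_sum_le {ι : Type*} (s : Finset ι) (x : ι → k) {B : ℝ} (hB : 0 ≤ B)
    (h : ∀ i ∈ s, w (x i) ≤ B) : w (∑ i ∈ s, x i) ≤ wN w s.card * B := by
  by_cases hw : IsNonarchimedean w
  · rw [wN_of_nonarch w hw, one_mul]
    rcases s.eq_empty_or_nonempty with rfl | hs
    · simpa using hB
    · obtain ⟨i, hi, hle⟩ := hw.finset_image_add_of_nonempty x hs
      exact hle.trans (h i hi)
  · rw [wN_of_arch w hw]
    calc w (∑ i ∈ s, x i) ≤ ∑ i ∈ s, w (x i) := w.sum_le s x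
      _ ≤ ∑ _i ∈ s, B := Finset.sum_le_sum h
      _ = s.card * B := by rw [Finset.sum_const, nsmul_eq_mul]

section supN

variable {ι : Type*} [Finite ι]

theorem bddAbove_abv (X : ι → k) : BddAbove (Set.range fun i => w (X i)) :=
  (Set.finite_range _).bddAbove

theorem le_supN (X : ι → k) (i : ι) : w (X i) ≤ supN w X :=
  le_ciSup (bddAbove_abv w X) i

theorem supN_nonneg (X : ι → k) : 0 ≤ supN w X :=
  Real.iSup_nonneg fun i => w.nonneg _

theorem supN_le {X : ι → k} {B : ℝ} (hB : 0 ≤ B) (h : ∀ i, w (X i) ≤ B) : supN w X ≤ B :=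
  Real.iSup_le h hB

theorem exists_eq_supN [Nonempty ι] (X : ι → k) : ∃ i, supN w X = w (X i) := by
  obtain ⟨i, hi⟩ := exists_eq_ciSup_of_finite (f := fun i => w (X i))
  exact ⟨i, hi.symm⟩

theorem supN_pos {X : ι → k} (hX : X ≠ 0) : 0 < supN w X := by
  obtain ⟨i, hi⟩ := Function.ne_iff.mp hX
  exact lt_of_lt_of_le (w.pos hi) (le_supN w X i)

theorem supN_smul (c : k) (X : ι → k) : supN w (c • X) = w c * supN w X := by
  unfold supN
  simp only [Pi.smul_apply, smul_eq_mul, map_mul]
  rw [Real.mul_iSup_of_nonneg (w.nonneg c)]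

theorem supN_tensor {ι' : Type*} [Finite ι'] (X : ι → k) (Y : ι' → k) :
    supN w (fun p : ι × ι' => X p.1 * Y p.2) = supN w X * supN w Y := by
  apply le_antisymm
  · refine supN_le w (mul_nonneg (supN_nonneg w X) (supN_nonneg w Y)) fun p => ?_
    rw [map_mul]
    exact mul_le_mul (le_supN w X _) (le_supN w Y _) (w.nonneg _) (supN_nonneg w X)
  · rcases isEmpty_or_nonempty ι with h1 | h1
    · have : supN w X = 0 := by unfold supN; exact Real.iSup_of_isEmpty _
      rw [this, zero_mul]
      exact supN_nonneg w _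
    rcases isEmpty_or_nonempty ι' with h2 | h2
    · have : supN w Y = 0 := by unfold supN; exact Real.iSup_of_isEmpty _
      rw [this, mul_zero]
      exact supN_nonneg w _
    obtain ⟨i, hi⟩ := exists_eq_supN w X
    obtain ⟨j, hj⟩ := exists_eq_supN w Y
    rw [hi, hj, ← map_mul]
    exact le_supN w (fun p : ι × ι' => X p.1 * Y p.2) (i, j)

theorem supN_comp_le {ι' : Type*} [Finite ι'] (f : ι' → ι) (X : ι → k) :
    supN w (X ∘ f) ≤ supN w X :=
  supN_le w (supN_nonneg w X) fun i => le_supN w X (f i)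

theorem supN_comp_equiv {ι' : Type*} [Finite ι'] (e : ι' ≃ ι) (X : ι → k) :
    supN w (X ∘ e) = supN w X := by
  apply le_antisymm (supN_comp_le w e X)
  have := supN_comp_le w e.symm (X ∘ e)
  simpa [Function.comp_assoc] using this

end supN

/-- Evaluation of a polynomial at a point of the unit polydisc. -/
theorem abv_eval_le {σ : Type*} (p : MvPolynomial σ k) (z : σ → k) (hz : ∀ i, w (z i) ≤ 1) :
    w (MvPolynomial.eval z p) ≤ locC p.support.card (p.support.val.map fun m => p.coeff m) w := by
  rw [MvPolynomial.eval_eq]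
  unfold locC
  refine abv_sum_le w _ _ (le_trans zero_le_one (one_le_prod_max w _)) fun m hm => ?_
  rw [map_mul, map_prod]
  have h1 : ∏ i ∈ m.support, w (z i ^ m i) ≤ 1 := by
    refine Finset.prod_le_one (fun i _ => w.nonneg _) fun i _ => ?_
    rw [map_pow]
    exact pow_le_one₀ (w.nonneg _) (hz i)
  calc w (p.coeff m) * ∏ i ∈ m.support, w (z i ^ m i) ≤ w (p.coeff m) * 1 :=
        mul_le_mul_of_nonneg_left h1 (w.nonneg _)
    _ = w (p.coeff m) := mul_one _
    _ ≤ _ := abv_le_prod_max w (Multiset.mem_map.mpr ⟨m, hm, rfl⟩)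

end Fermat.Agent.S17.HA
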