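import Fermat.Agent.S17.HA.Mean
import Fermat.Agent.S17.HA.Loc
import Fermat.Agent.S17.HT.Glob1

/-!
# S17 / HA / Defs : absolute logarithmic height on `ℚ̄` (definitions)

* `Pl`      : the places of `ℚ` (`none` = the archimedean one);
* `av v`    : one fixed extension of `v` to `ℚ̄`;   `avc v σ = |σ ·|_v`;
* `SS F`    : `∫_{σ ∈ G_ℚ} ∑_v F (avc v σ)`, a positive linear functional on `Tame` functions;
* `ht X`    : `SS (w ↦ log sup_i w (X i))`, the absolute logarithmic height of `X ∈ ℚ̄^ι`.
-/

set_option autoImplicit false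

namespace Fermat.Agent.S17.HA

open NumberField

/-- the places of `ℚ`. -/
abbrev Pl : Type := Option (FinitePlace ℚ)

/-- one fixed extension to `ℚ̄` of every place of `ℚ`. -/
noncomputable def av : Pl → AbsoluteValue Qb ℝ
  | none => HT.glob1_exists_abv_arch.choose
  | some w => (HT.glob1_exists_abv_extends w).choose

theorem av_none_rat (x : ℚ) : av none (algebraMap ℚ Qb x) = |(x : ℝ)| :=
  HT.glob1_exists_abv_arch.choose_spec x

theorem av_some_rat (w : FinitePlace ℚ) (x : ℚ) : av (some w) (algebraMap ℚ Qb x) = w x :=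
  (HT.glob1_exists_abv_extends w).choose_spec.2 x

theorem av_some_nonarch (w : FinitePlace ℚ) : IsNonarchimedean (av (some w)) :=
  (HT.glob1_exists_abv_extends w).choose_spec.1

/-- the conjugate absolute value `x ↦ |σ x|_v`. -/
noncomputable def avc (v : Pl) (σ : GQ) : AbsoluteValue Qb ℝ :=
  (av v).comp (f := (σ : Qb →+* Qb)) σ.injective

@[simp] theorem avc_apply (v : Pl) (σ : GQ) (x : Qb) : avc v σ x = av v (σ x) := rfl

theorem avc_one (v : Pl) : avc v 1 = av v := by
  ext x
  rfl

theorem avc_rat (v : Pl) (σ : GQ) (x : ℚ) :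
    avc v σ (algebraMap ℚ Qb x) = av v (algebraMap ℚ Qb x) := by
  rw [avc_apply, AlgEquiv.commutes]

theorem avc_some_nonarch (w : FinitePlace ℚ) (σ : GQ) : IsNonarchimedean (avc (some w) σ) := by
  intro x y
  simp only [avc_apply, map_add]
  exact av_some_nonarch w _ _

theorem avc_none_arch (σ : GQ) : ¬ IsNonarchimedean (avc none σ) := by
  intro h
  have h1 := h 1 1
  have h2 : avc none σ (1 + 1) = 2 := by
    have : (1 + 1 : Qb) = algebraMap ℚ Qb 2 := by
      rw [map_ofNat]; norm_num
    rw [this, avc_rat, av_none_rat]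
    norm_num
  rw [h2, map_one, max_self] at h1
  norm_num at h1

/-- Functions of an absolute value which vanish at almost all places (uniformly in the conjugate) and
are invariant under an open subgroup. -/
def Tame (F : AbsoluteValue Qb ℝ → ℝ) : Prop :=
  {v : Pl | ∃ σ : GQ, F (avc v σ) ≠ 0}.Finite ∧
    ∃ E : IntermediateField ℚ Qb, FiniteDimensional ℚ E ∧
      ∀ (v : Pl) (σ u : GQ), u ∈ E.fixingSubgroup → F (avc v (σ * u)) = F (avc v σ)

/-- `∫_σ ∑_v F (|σ ·|_v)`. -/
noncomputable def SS (F : AbsoluteValue Qb ℝ → ℝ) : ℝ :=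
  mean fun σ => ∑ᶠ v : Pl, F (avc v σ)

/-- the absolute logarithmic height of a tuple of algebraic numbers. -/
noncomputable def ht {ι : Type*} (X : ι → Qb) : ℝ :=
  SS fun w => Real.log (supN w X)

/-- the global constant attached to the local constants `locC M S`. -/
noncomputable def cst (M : ℝ) (S : Multiset Qb) : ℝ :=
  SS fun w => Real.log (locC M S w)

end Fermat.Agent.S17.HA
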