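import Fermat.Agent.S17.HA.Prod

/-!
# S17 / HA / HtB : basic properties of the absolute height, local-to-global transfer
-/

set_option autoImplicit false
set_option linter.unusedSectionVars false

namespace Fermat.Agent.S17.HA

variable {ι ι' : Type*} [Finite ι] [Finite ι']

theorem ht_eq_SS (X : ι → Qb) : ht X = SS fun w => Real.log (supN w X) := rfl

theorem cst_nonneg {M : ℝ} (hM : 1 ≤ M) (S : Multiset Qb) : 0 ≤ cst M S :=
  SS_nonneg (tame_log_locC hM S) fun _ _ => Real.log_nonneg (one_le_locC _ hM S)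

/-- **Transfer.** A local inequality with an admissible constant gives a global one. -/
theorem transfer {M : ℝ} (hM : 1 ≤ M) (S : Multiset Qb) {F G : AbsoluteValue Qb ℝ → ℝ}
    (hF : Tame F) (hG : Tame G)
    (h : ∀ v σ, F (avc v σ) ≤ Real.log (locC M S (avc v σ)) + G (avc v σ)) :
    SS F ≤ cst M S + SS G := by
  unfold cst
  rw [← SS_add (tame_log_locC hM S) hG]
  exact SS_mono hF ((tame_log_locC hM S).add hG) h

theorem supN_zero {k : Type*} [Field k] (w : AbsoluteValue k ℝ) : supN w (0 : ι → k) = 0 :=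
  le_antisymm (supN_le w le_rfl fun i => by simp) (supN_nonneg w _)

theorem ht_zero : ht (0 : ι → Qb) = 0 := by
  unfold ht
  simp only [supN_zero, Real.log_zero]
  exact SS_zero

theorem ht_smul (X : ι → Qb) {c : Qb} (hc : c ≠ 0) : ht (c • X) = ht X := by
  by_cases hX : X = 0
  · rw [hX, smul_zero]
  unfold ht
  have h1 : (fun w : AbsoluteValue Qb ℝ => Real.log (supN w (c • X))) =
      fun w => Real.log (w c) + Real.log (supN w X) := by
    ext w
    rw [supN_smul, Real.log_mul (ne_of_gt (w.pos hc)) (ne_of_gt (supN_pos w hX))]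
  rw [h1, SS_add (tame_log_abv hc) (tame_log_supN hX), SS_log_abv hc, zero_add]

theorem ht_nonneg (X : ι → Qb) : 0 ≤ ht X := by
  by_cases hX : X = 0
  · rw [hX, ht_zero]
  obtain ⟨i, hi⟩ := Function.ne_iff.mp hX
  have hi' : X i ≠ 0 := hi
  rw [← ht_smul X (inv_ne_zero hi')]
  have hX' : (X i)⁻¹ • X ≠ 0 := smul_ne_zero (inv_ne_zero hi') hX
  refine SS_nonneg (tame_log_supN hX') fun v σ => Real.log_nonneg ?_
  have := le_supN (avc v σ) ((X i)⁻¹ • X) i
  rwa [Pi.smul_apply, smul_eq_mul, inv_mul_cancel₀ hi', map_one] at this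

theorem ht_conj (X : ι → Qb) (g : GQ) : ht (fun i => g (X i)) = ht X :=
  SS_conj (fun w => Real.log (supN w X)) g

theorem ht_tensor {X : ι → Qb} {Y : ι' → Qb} (hX : X ≠ 0) (hY : Y ≠ 0) :
    ht (fun p : ι × ι' => X p.1 * Y p.2) = ht X + ht Y := by
  unfold ht
  rw [← SS_add (tame_log_supN hX) (tame_log_supN hY)]
  congr 1
  ext w
  rw [supN_tensor, Real.log_mul (ne_of_gt (supN_pos w hX)) (ne_of_gt (supN_pos w hY))]

theorem ht_comp_equiv (e : ι' ≃ ι) (X : ι → Qb) : ht (X ∘ e) = ht X := by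
  unfold ht
  simp only [supN_comp_equiv]

theorem ht_comp_le (f : ι' → ι) (X : ι → Qb) : ht (X ∘ f) ≤ ht X := by
  by_cases h : X ∘ f = 0
  · rw [h, ht_zero]
    exact ht_nonneg X
  have hX : X ≠ 0 := by
    rintro rfl
    exact h rfl
  exact SS_mono (tame_log_supN h) (tame_log_supN hX) fun v σ =>
    Real.log_le_log (supN_pos _ h) (supN_comp_le _ f X)

/-- comparison of two vectors. -/
theorem ht_le_of_local {M : ℝ} (hM : 1 ≤ M) (S : Multiset Qb) {X : ι → Qb} {Y : ι' → Qb}
    (h : ∀ v σ, supN (avc v σ) X ≤ locC M S (avc v σ) * supN (avc v σ) Y) :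
    ht X ≤ ht Y + cst M S := by
  by_cases hX : X = 0
  · rw [hX, ht_zero]
    exact add_nonneg (ht_nonneg Y) (cst_nonneg hM S)
  have hY : Y ≠ 0 := by
    rintro rfl
    have := h none 1
    rw [supN_zero, mul_zero] at this
    exact absurd this (not_le.mpr (supN_pos _ hX))
  rw [add_comm]
  refine transfer hM S (tame_log_supN hX) (tame_log_supN hY) fun v σ => ?_
  rw [← Real.log_mul (ne_of_gt (locC_pos _ hM S)) (ne_of_gt (supN_pos _ hY))]
  exact Real.log_le_log (supN_pos _ hX) (h v σ)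

end Fermat.Agent.S17.HA
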