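import Fermat.Agent.S17.HA.MainB

/-!
# S17 / HA / Main : `Nonempty GHt` (official name used by `S17/HN/Chain.lean`)

The proof is helper17's Haar-mean chain (`HA/MainB.lean`).
-/

set_option autoImplicit false

namespace Fermat.Agent.S17.HA

theorem nonempty_GHt : Nonempty Fermat.Agent.S17.HN.GHt := nonempty_GHt_B

end Fermat.Agent.S17.HA
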