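import Mathlib

/-!
# S17 / HA / Mean : the invariant mean on locally constant functions on `G_ℚ`

`mean φ = ∫ φ(σ⁻¹) dσ` (Haar probability measure on the compact group `G_ℚ`).
-/

set_option autoImplicit false

namespace Fermat.Agent.S17.HA

/-- `ℚ̄`. -/
abbrev Qb : Type := AlgebraicClosure ℚ
/-- `G_ℚ`. -/
abbrev GQ : Type := Qb ≃ₐ[ℚ] Qb

theorem isGalois_Qb : IsGalois ℚ Qb :=
  @IsAlgClosure.isGalois ℚ (AlgebraicClosure ℚ) _ _ (AlgebraicClosure.instAlgebra ℚ) _ _

attribute [local instance] isGalois_Qb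

/-- `φ` is right invariant under an open subgroup. -/
def LC (φ : GQ → ℝ) : Prop :=
  ∃ E : IntermediateField ℚ Qb, FiniteDimensional ℚ E ∧
    ∀ σ u : GQ, u ∈ E.fixingSubgroup → φ (σ * u) = φ σ

noncomputable section

/-- the Borel σ-algebra (not an instance outside this file). -/
@[instance_reducible] def measGQ : MeasurableSpace GQ := borel GQ

attribute [local instance] measGQ

local instance : BorelSpace GQ := ⟨rfl⟩

/-- Haar probability measure. -/
def haarGQ : MeasureTheory.Measure GQ := MeasureTheory.Measure.haarMeasure ⊤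

/-- the mean. -/
def mean (φ : GQ → ℝ) : ℝ := ∫ σ, φ σ⁻¹ ∂haarGQ

instance : haarGQ.IsMulLeftInvariant := by unfold haarGQ; infer_instance

instance : MeasureTheory.IsProbabilityMeasure haarGQ :=
  ⟨by
    have := MeasureTheory.Measure.haarMeasure_self (K₀ := (⊤ : TopologicalSpace.PositiveCompacts GQ))
    simpa [haarGQ] using this⟩

theorem LC.continuous {φ : GQ → ℝ} (h : LC φ) : Continuous φ := by
  obtain ⟨E, hE, hφ⟩ := h
  apply IsLocallyConstant.continuous
  rw [IsLocallyConstant.iff_exists_open]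
  intro σ
  refine ⟨(fun u => σ * u) '' (E.fixingSubgroup : Set GQ), ?_, ⟨1, one_mem _, mul_one σ⟩, ?_⟩
  · exact (Homeomorph.mulLeft σ).isOpenMap _ E.fixingSubgroup_isOpen
  · rintro _ ⟨u, hu, rfl⟩
    exact hφ σ u hu

theorem LC.integrable {φ : GQ → ℝ} (h : LC φ) :
    MeasureTheory.Integrable (fun σ => φ σ⁻¹) haarGQ :=
  (h.continuous.comp continuous_inv).integrable_of_hasCompactSupport
    (HasCompactSupport.of_compactSpace _)

theorem LC.const (c : ℝ) : LC fun _ => c := ⟨⊥, inferInstance, fun _ _ _ => rfl⟩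

theorem LC.add {φ ψ : GQ → ℝ} (h1 : LC φ) (h2 : LC ψ) : LC fun σ => φ σ + ψ σ := by
  obtain ⟨E, hE, hφ⟩ := h1
  obtain ⟨E', hE', hψ⟩ := h2
  refine ⟨E ⊔ E', IntermediateField.finiteDimensional_sup E E', fun σ u hu => ?_⟩
  rw [IntermediateField.fixingSubgroup_sup] at hu
  change φ (σ * u) + ψ (σ * u) = _
  rw [hφ σ u hu.1, hψ σ u hu.2]

theorem LC.smul {φ : GQ → ℝ} (c : ℝ) (h1 : LC φ) : LC fun σ => c * φ σ := by
  obtain ⟨E, hE, hφ⟩ := h1
  exact ⟨E, hE, fun σ u hu => by change c * φ (σ * u) = _; rw [hφ σ u hu]⟩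

theorem LC.sum {ι : Type*} (s : Finset ι) {φ : ι → GQ → ℝ} (h : ∀ i ∈ s, LC (φ i)) :
    LC fun σ => ∑ i ∈ s, φ i σ := by
  classical
  induction s using Finset.induction_on with
  | empty => simpa using LC.const 0
  | insert a s ha ih =>
    simp only [Finset.sum_insert ha]
    exact (h a (Finset.mem_insert_self _ _)).add (ih fun i hi => h i (Finset.mem_insert_of_mem hi))

theorem LC.comp_mul_right {φ : GQ → ℝ} (h : LC φ) (g : GQ) : LC fun σ => φ (σ * g) := by
  obtain ⟨E, hE, hφ⟩ := h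
  -- the conjugate field `g E`
  refine ⟨E.map (g : GQ).toAlgHom, ?_, fun σ u hu => ?_⟩
  · exact LinearEquiv.finiteDimensional (IntermediateField.equivMap E (g : GQ).toAlgHom).toLinearEquiv
  · have h1 : g⁻¹ * u * g ∈ E.fixingSubgroup := by
      rw [IntermediateField.mem_fixingSubgroup_iff] at hu ⊢
      intro x hx
      have h2 := hu (g x) ⟨x, hx, rfl⟩
      change g⁻¹ (u (g x)) = x
      rw [h2]
      exact g.symm_apply_apply x
    have h3 := hφ (σ * g) (g⁻¹ * u * g) h1
    have h4 : σ * g * (g⁻¹ * u * g) = σ * u * g := by group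
    rw [h4] at h3
    exact h3

theorem mean_const (c : ℝ) : mean (fun _ => c) = c := by
  simp [mean]

theorem mean_add {φ ψ : GQ → ℝ} (h1 : LC φ) (h2 : LC ψ) :
    mean (fun σ => φ σ + ψ σ) = mean φ + mean ψ :=
  MeasureTheory.integral_add h1.integrable h2.integrable

theorem mean_smul (c : ℝ) (φ : GQ → ℝ) : mean (fun σ => c * φ σ) = c * mean φ :=
  MeasureTheory.integral_const_mul c _

theorem mean_mono {φ ψ : GQ → ℝ} (h1 : LC φ) (h2 : LC ψ) (h : ∀ σ, φ σ ≤ ψ σ) :
    mean φ ≤ mean ψ :=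
  MeasureTheory.integral_mono h1.integrable h2.integrable fun σ => h σ⁻¹

theorem mean_comp_mul_right (φ : GQ → ℝ) (g : GQ) : mean (fun σ => φ (σ * g)) = mean φ := by
  unfold mean
  have := MeasureTheory.integral_mul_left_eq_self (μ := haarGQ) (fun σ => φ σ⁻¹) g⁻¹
  rw [← this]
  simp only [mul_inv_rev, inv_inv]

theorem mean_sum {ι : Type*} (s : Finset ι) {φ : ι → GQ → ℝ} (h : ∀ i ∈ s, LC (φ i)) :
    mean (fun σ => ∑ i ∈ s, φ i σ) = ∑ i ∈ s, mean (φ i) :=
  MeasureTheory.integral_finsetSum s fun i hi => (h i hi).integrable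

end

end Fermat.Agent.S17.HA
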