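import Fermat.Agent.S17.HA.TameSup

/-!
# S17 / HA / Prod : the product formula
-/

set_option autoImplicit false

namespace Fermat.Agent.S17.HA

open NumberField

/-- the product formula over `ℚ`. -/
theorem finsum_log_av_rat {q : ℚ} (hq : q ≠ 0) :
    ∑ᶠ v : Pl, Real.log (av v (algebraMap ℚ Qb q)) = 0 := by
  have hq' : algebraMap ℚ Qb q ≠ 0 := by
    rwa [Ne, map_eq_zero]
  rw [← Real.log_finprod (fun v => (av v).pos hq')]
  have hfs : Function.HasFiniteMulSupport
      ((fun v : Pl => av v (algebraMap ℚ Qb q)) ∘ some) := by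
    have : ((fun v : Pl => av v (algebraMap ℚ Qb q)) ∘ some) = fun w : FinitePlace ℚ => w q := by
      funext w
      exact av_some_rat w q
    rw [this]
    exact FinitePlace.hasFiniteMulSupport hq
  rw [finprod_option hfs, av_none_rat]
  simp_rw [av_some_rat]
  have h := NumberField.prod_abs_eq_one (K := ℚ) hq
  simp_rw [Rat.infinitePlace_apply] at h
  simp at h
  rw [h, Real.log_one]

/-- an element of `ℚ̄` fixed by the whole Galois group is rational. -/
theorem prod_rational (x : Qb) (h : ∀ σ : GQ, σ x = x) : ∃ q : ℚ, algebraMap ℚ Qb q = x := by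
  have hgal : IsGalois ℚ Qb := isGalois_Qb
  have h1 : x ∈ (⊥ : IntermediateField ℚ Qb) := by
    rw [← InfiniteGalois.fixedField_fixingSubgroup (⊥ : IntermediateField ℚ Qb),
      IntermediateField.mem_fixedField_iff]
    exact fun σ _ => h σ
  exact IntermediateField.mem_bot.mp h1

/-- **The product formula on `ℚ̄`.** -/
theorem SS_log_abv {a : Qb} (ha : a ≠ 0) : SS (fun w => Real.log (w a)) = 0 := by
  classical
  set O : Finset Qb := (finite_conj a).toFinset with hO
  have hmem : ∀ y, y ∈ O ↔ ∃ σ : GQ, σ a = y := by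
    intro y
    rw [hO, Set.Finite.mem_toFinset]
    rfl
  have hO0 : ∀ y ∈ O, y ≠ 0 := by
    intro y hy
    obtain ⟨σ, rfl⟩ := (hmem y).mp hy
    exact (map_ne_zero (σ : Qb →+* Qb)).mpr ha
  have hfix : ∀ τ : GQ, τ (∏ y ∈ O, y) = ∏ y ∈ O, y := by
    intro τ
    rw [map_prod]
    refine Finset.prod_bij (fun y _ => τ y) ?_ ?_ ?_ ?_
    · intro y hy
      obtain ⟨σ, rfl⟩ := (hmem y).mp hy
      exact (hmem _).mpr ⟨τ * σ, rfl⟩
    · intro y _ z _ h
      exact τ.injective h
    · intro z hz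
      obtain ⟨σ, rfl⟩ := (hmem z).mp hz
      refine ⟨(τ⁻¹ * σ) a, (hmem _).mpr ⟨τ⁻¹ * σ, rfl⟩, ?_⟩
      show τ (τ⁻¹ (σ a)) = σ a
      exact τ.apply_symm_apply _
    · intro y _
      rfl
  obtain ⟨q, hq⟩ := prod_rational _ hfix
  have hq0 : q ≠ 0 := by
    rintro rfl
    rw [map_zero] at hq
    exact Finset.prod_ne_zero_iff.mpr hO0 hq.symm
  -- all conjugates have the same `SS`
  have hconj : ∀ y ∈ O, SS (fun w => Real.log (w y)) = SS (fun w => Real.log (w a)) := by
    intro y hy
    obtain ⟨g, rfl⟩ := (hmem y).mp hy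
    exact SS_conj (fun w => Real.log (w a)) g
  have hsum : SS (fun w => ∑ y ∈ O, Real.log (w y)) = ∑ y ∈ O, SS (fun w => Real.log (w y)) :=
    SS_sum O (F := fun y w => Real.log (w y)) fun y hy => tame_log_abv (hO0 y hy)
  have hprod : (fun w : AbsoluteValue Qb ℝ => ∑ y ∈ O, Real.log (w y)) =
      fun w => Real.log (w (algebraMap ℚ Qb q)) := by
    funext w
    rw [hq, map_prod, Real.log_prod]
    exact fun y hy => w.ne_zero (hO0 y hy)
  have hzero : SS (fun w => Real.log (w (algebraMap ℚ Qb q))) = 0 := by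
    rw [SS_of_const (F := fun w => Real.log (w (algebraMap ℚ Qb q)))
      (fun v σ => by simp only [avc_rat])]
    exact finsum_log_av_rat hq0
  rw [hprod, hzero, Finset.sum_congr rfl hconj, Finset.sum_const, nsmul_eq_mul] at hsum
  have hcard : (O.card : ℝ) ≠ 0 := by
    have : a ∈ O := (hmem a).mpr ⟨1, rfl⟩
    exact_mod_cast (Finset.card_pos.mpr ⟨a, this⟩).ne'
  exact (mul_eq_zero.mp hsum.symm).resolve_left hcard

end Fermat.Agent.S17.HA
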