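import Fermat.Agent.S17.HA.Calc

/-!
# S17 / HA / TameSup : the basic tame functions
-/

set_option autoImplicit false

namespace Fermat.Agent.S17.HA

open NumberField

theorem isIntegral_Qb (a : Qb) : IsIntegral ℚ a :=
  (AlgebraicClosure.isAlgebraic ℚ).isIntegral.isIntegral a

/-- an algebraic number has finitely many conjugates. -/
theorem finite_conj (a : Qb) : (Set.range fun σ : GQ => σ a).Finite := by
  refine ((minpoly ℚ a).rootSet_finite Qb).subset ?_
  rintro _ ⟨σ, rfl⟩
  rw [Polynomial.mem_rootSet]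
  refine ⟨minpoly.ne_zero (isIntegral_Qb a), ?_⟩
  have := Polynomial.aeval_algHom_apply σ.toAlgHom a (minpoly ℚ a)
  rw [minpoly.aeval, map_zero] at this
  exact this

/-- `|σ a|_v ≤ 1` for almost all `v`, uniformly in `σ`. -/
theorem finite_one_lt_abv (a : Qb) : {v : Pl | ∃ σ : GQ, 1 < avc v σ a}.Finite := by
  have h1 : ∀ b : Qb, {w : FinitePlace ℚ | 1 < av (some w) b}.Finite := fun b =>
    HT.glob1_finite_one_lt_abv (fun w => av (some w)) av_some_nonarch av_some_rat b
  have h2 : (⋃ b ∈ Set.range fun σ : GQ => σ a,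
      (some '' {w : FinitePlace ℚ | 1 < av (some w) b} : Set Pl)).Finite :=
    (finite_conj a).biUnion fun b _ => (h1 b).image _
  refine ((Set.finite_singleton (none : Pl)).union h2).subset ?_
  rintro v ⟨σ, hσ⟩
  cases v with
  | none => exact Or.inl rfl
  | some w =>
    right
    rw [Set.mem_iUnion₂]
    exact ⟨σ a, ⟨σ, rfl⟩, w, hσ, rfl⟩

/-- `|σ a|_v = 1` for almost all `v`, uniformly in `σ`. -/
theorem finite_abv_ne_one {a : Qb} (ha : a ≠ 0) : {v : Pl | ∃ σ : GQ, avc v σ a ≠ 1}.Finite := by
  refine ((finite_one_lt_abv a).union (finite_one_lt_abv a⁻¹)).subset ?_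
  rintro v ⟨σ, hσ⟩
  rcases lt_or_gt_of_ne hσ with h | h
  · right
    refine ⟨σ, ?_⟩
    rw [map_inv₀]
    exact (one_lt_inv₀ ((avc v σ).pos ha)).mpr h
  · exact Or.inl ⟨σ, h⟩

/-- a finite set of algebraic numbers is fixed by an open subgroup. -/
theorem exists_field {S : Set Qb} (hS : S.Finite) :
    ∃ E : IntermediateField ℚ Qb, FiniteDimensional ℚ E ∧
      ∀ u ∈ E.fixingSubgroup, ∀ x ∈ S, u x = x := by
  haveI : Finite S := hS
  refine ⟨IntermediateField.adjoin ℚ S,
    IntermediateField.finiteDimensional_adjoin fun x _ => isIntegral_Qb x, fun u hu x hx => ?_⟩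
  rw [IntermediateField.mem_fixingSubgroup_iff] at hu
  exact hu x (IntermediateField.subset_adjoin ℚ S hx)

/-- a criterion for tameness. -/
theorem tame_of {F : AbsoluteValue Qb ℝ → ℝ} {S : Set Qb} (hS : S.Finite) {T : Set Pl}
    (hT : T.Finite) (h0 : ∀ v, v ∉ T → ∀ σ, F (avc v σ) = 0)
    (hinv : ∀ (v : Pl) (σ u : GQ), (∀ x ∈ S, u x = x) → F (avc v (σ * u)) = F (avc v σ)) :
    Tame F := by
  obtain ⟨E, hE, hfix⟩ := exists_field hS
  refine ⟨hT.subset ?_, E, hE, fun v σ u hu => hinv v σ u (hfix u hu)⟩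
  rintro v ⟨σ, hσ⟩
  by_contra hv
  exact hσ (h0 v hv σ)

theorem avc_mul_apply (v : Pl) (σ u : GQ) (x : Qb) : avc v (σ * u) x = avc v σ (u x) := rfl

theorem tame_log_abv {a : Qb} (ha : a ≠ 0) : Tame fun w => Real.log (w a) := by
  refine tame_of (Set.finite_singleton a) (finite_abv_ne_one ha) (fun v hv σ => ?_)
    fun v σ u hu => ?_
  · have : avc v σ a = 1 := by
      by_contra h
      exact hv ⟨σ, h⟩
    change Real.log (avc v σ a) = 0
    rw [this, Real.log_one]
  · change Real.log (avc v (σ * u) a) = Real.log (avc v σ a)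
    rw [avc_mul_apply, hu a rfl]

theorem tame_log_max_one (a : Qb) : Tame fun w => Real.log (max 1 (w a)) := by
  refine tame_of (Set.finite_singleton a) (finite_one_lt_abv a) (fun v hv σ => ?_)
    fun v σ u hu => ?_
  · have : avc v σ a ≤ 1 := by
      by_contra h
      exact hv ⟨σ, not_le.mp h⟩
    change Real.log (max 1 (avc v σ a)) = 0
    rw [max_eq_left this, Real.log_one]
  · change Real.log (max 1 (avc v (σ * u) a)) = Real.log (max 1 (avc v σ a))
    rw [avc_mul_apply, hu a rfl]

theorem tame_log_supN {ι : Type*} [Finite ι] {X : ι → Qb} (hX : X ≠ 0) :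
    Tame fun w => Real.log (supN w X) := by
  have hT : (⋃ i : {i // X i ≠ 0}, {v : Pl | ∃ σ : GQ, avc v σ (X i) ≠ 1}).Finite :=
    Set.finite_iUnion fun i => finite_abv_ne_one i.2
  refine tame_of (Set.finite_range X) hT (fun v hv σ => ?_) fun v σ u hu => ?_
  · have h1 : ∀ i, X i ≠ 0 → avc v σ (X i) = 1 := by
      intro i hi
      by_contra h
      exact hv (Set.mem_iUnion.mpr ⟨⟨i, hi⟩, σ, h⟩)
    have h2 : supN (avc v σ) X = 1 := by
      apply le_antisymm
      · refine supN_le _ zero_le_one fun i => ?_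
        by_cases hi : X i = 0
        · rw [hi, map_zero]
          exact zero_le_one
        · rw [h1 i hi]
      · obtain ⟨i, hi⟩ := Function.ne_iff.mp hX
        rw [← h1 i hi]
        exact le_supN _ X i
    change Real.log (supN (avc v σ) X) = 0
    rw [h2, Real.log_one]
  · change Real.log (supN (avc v (σ * u)) X) = Real.log (supN (avc v σ) X)
    congr 1
    unfold supN
    congr 1
    ext i
    rw [avc_mul_apply, hu (X i) ⟨i, rfl⟩]

theorem tame_log_wN (M : ℝ) : Tame fun w => Real.log (wN w M) := by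
  refine tame_of Set.finite_empty (Set.finite_singleton (none : Pl)) (fun v hv σ => ?_)
    fun v σ u _ => ?_
  · cases v with
    | none => exact absurd rfl hv
    | some w =>
      change Real.log (wN (avc (some w) σ) M) = 0
      rw [wN_of_nonarch _ (avc_some_nonarch w σ), Real.log_one]
  · change Real.log (wN (avc v (σ * u)) M) = Real.log (wN (avc v σ) M)
    cases v with
    | none => rw [wN_of_arch _ (avc_none_arch _), wN_of_arch _ (avc_none_arch _)]
    | some w => rw [wN_of_nonarch _ (avc_some_nonarch w _), wN_of_nonarch _ (avc_some_nonarch w _)]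

theorem log_locC {k : Type*} [Field k] {M : ℝ} (hM : 1 ≤ M) (S : Multiset k)
    (w : AbsoluteValue k ℝ) :
    Real.log (locC M S w) = Real.log (wN w M) + (S.map fun s => Real.log (max 1 (w s))).sum := by
  unfold locC
  rw [Real.log_mul (ne_of_gt (wN_pos w hM))
    (ne_of_gt (lt_of_lt_of_le one_pos (one_le_prod_max w S)))]
  congr 1
  induction S using Multiset.induction_on with
  | empty => simp
  | cons a S ih =>
    rw [Multiset.map_cons, Multiset.prod_cons, Multiset.map_cons, Multiset.sum_cons,
      Real.log_mul (ne_of_gt (lt_of_lt_of_le one_pos (le_max_left _ _)))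
        (ne_of_gt (lt_of_lt_of_le one_pos (one_le_prod_max w S))), ih]

theorem tame_multiset_sum (S : Multiset Qb) :
    Tame fun w => (S.map fun s => Real.log (max 1 (w s))).sum := by
  induction S using Multiset.induction_on with
  | empty => simpa using Tame.zero
  | cons a S ih =>
    simp only [Multiset.map_cons, Multiset.sum_cons]
    exact (tame_log_max_one a).add ih

theorem tame_log_locC {M : ℝ} (hM : 1 ≤ M) (S : Multiset Qb) :
    Tame fun w => Real.log (locC M S w) := by
  simp only [log_locC hM]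
  exact (tame_log_wN M).add (tame_multiset_sum S)

end Fermat.Agent.S17.HA
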